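import Fermat.Agent.JH.LocRep
import Fermat.Prelude.Def_JacJ1Iface

/-!
# S25 (kb 73), block H: functors on schemes over a base, total functor, relative representability
-/

set_option autoImplicit false

noncomputable section

universe u

open CategoryTheory CategoryTheory.Limits Opposite AlgebraicGeometry NeronModelInfra

namespace Fermat.Agent.JH

/-- a functor on schemes over `S`, with values in `Type u`, given by hand -/
structure RelFun (S : Scheme.{u}) where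
  obj : {T : Scheme.{u}} → (T ⟶ S) → Type u
  map : {T T' : Scheme.{u}} → {t : T ⟶ S} → {t' : T' ⟶ S} → SchemeHomOver t' t →
    obj t → obj t'
  map_id : ∀ {T : Scheme.{u}} (t : T ⟶ S) (x : obj t), map ⟨𝟙 T, Category.id_comp t⟩ x = x
  map_comp : ∀ {T T' T'' : Scheme.{u}} {t : T ⟶ S} {t' : T' ⟶ S} {t'' : T'' ⟶ S}
    (g : SchemeHomOver t' t) (g' : SchemeHomOver t'' t') (x : obj t),
    map g' (map g x) = map ⟨g'.1 ≫ g.1, by rw [Category.assoc, g.2, g'.2]⟩ x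

namespace RelFun

variable {S : Scheme.{u}} (P : RelFun S)

/-- restriction along a morphism, with the composite structure morphism -/
def res {T T' : Scheme.{u}} (g : T' ⟶ T) {t : T ⟶ S} (x : P.obj t) : P.obj (g ≫ t) :=
  P.map ⟨g, rfl⟩ x

theorem map_congr {T T' : Scheme.{u}} {t : T ⟶ S} {t' : T' ⟶ S} {g g' : T' ⟶ T}
    (e : g = g') (h : g ≫ t = t') (h' : g' ≫ t = t') (x : P.obj t) :
    P.map (⟨g, h⟩ : SchemeHomOver t' t) x = P.map ⟨g', h'⟩ x := by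
  subst e; rfl

theorem sigma_ext {T : Scheme.{u}} {t t' : T ⟶ S} {x : P.obj t} {y : P.obj t'} (e : t = t')
    (h : P.map (⟨𝟙 T, by rw [Category.id_comp, e]⟩ : SchemeHomOver t' t) x = y) :
    (⟨t, x⟩ : Σ t : T ⟶ S, P.obj t) = ⟨t', y⟩ := by
  subst e
  rw [P.map_id] at h
  rw [h]

theorem sigma_snd {T : Scheme.{u}} {x y : Σ t : T ⟶ S, P.obj t} (h : x = y) :
    P.map (⟨𝟙 T, by rw [Category.id_comp, h]⟩ : SchemeHomOver y.1 x.1) x.2 = y.2 := by
  subst h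
  exact P.map_id _ _

/-- the total functor -/
@[simps obj]
def tot : Scheme.{u}ᵒᵖ ⥤ Type u where
  obj T := Σ t : T.unop ⟶ S, P.obj t
  map {T T'} g := TypeCat.ofHom fun x => ⟨g.unop ≫ x.1, P.res g.unop x.2⟩
  map_id T := by
    refine ConcreteCategory.hom_ext _ _ fun x => ?_
    show (⟨𝟙 T.unop ≫ x.1, P.res (𝟙 T.unop) x.2⟩ : Σ t : T.unop ⟶ S, P.obj t) = ⟨x.1, x.2⟩
    refine P.sigma_ext (Category.id_comp _) ?_
    unfold res
    rw [P.map_comp]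
    have := P.map_id x.1 x.2
    convert this using 2
    exact Subtype.ext (Category.id_comp _)
  map_comp {T T' T''} g g' := by
    refine ConcreteCategory.hom_ext _ _ fun x => ?_
    show (⟨(g'.unop ≫ g.unop) ≫ x.1, P.res (g'.unop ≫ g.unop) x.2⟩ :
      Σ t : T''.unop ⟶ S, P.obj t) = ⟨g'.unop ≫ g.unop ≫ x.1, P.res g'.unop (P.res g.unop x.2)⟩
    refine P.sigma_ext (Category.assoc _ _ _) ?_
    unfold res
    rw [P.map_comp, P.map_comp]
    exact P.map_congr (Category.id_comp _) _ _ _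

theorem tot_map_apply {T T' : Scheme.{u}} (g : T' ⟶ T) (t : T ⟶ S) (x : P.obj t) :
    P.tot.map g.op (⟨t, x⟩ : Σ t : T ⟶ S, P.obj t) = ⟨g ≫ t, P.res g x⟩ := rfl

/-- Zariski sheaf condition, by hand -/
structure IsZ : Prop where
  sep : ∀ {T : Scheme.{u}} (t : T ⟶ S) (𝒰 : Scheme.OpenCover.{u, u} T) (x y : P.obj t),
    (∀ i, P.res (𝒰.f i) x = P.res (𝒰.f i) y) → x = y
  glue : ∀ {T : Scheme.{u}} (t : T ⟶ S) (𝒰 : Scheme.OpenCover.{u, u} T) (x : ∀ i, P.obj (𝒰.f i ≫ t)),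
    (∀ i j, P.map (t' := pullback.fst (𝒰.f i) (𝒰.f j) ≫ 𝒰.f i ≫ t)
        ⟨pullback.fst (𝒰.f i) (𝒰.f j), rfl⟩ (x i) =
      P.map (t' := pullback.fst (𝒰.f i) (𝒰.f j) ≫ 𝒰.f i ≫ t)
        ⟨pullback.snd (𝒰.f i) (𝒰.f j), by
          rw [← Category.assoc, ← Category.assoc, pullback.condition]⟩ (x j)) →
    ∃ y : P.obj t, ∀ i, P.res (𝒰.f i) y = x i

variable {P}

theorem isSheaf_tot (hP : P.IsZ) : Presieve.IsSheaf Scheme.zariskiTopology P.tot := by
  unfold Scheme.zariskiTopology Scheme.grothendieckTopology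
  rw [Precoverage.isSheaf_toGrothendieck_iff_of_isStableUnderBaseChange_of_small.{u}]
  rintro Y (𝒰 : Scheme.OpenCover.{u, u} Y) x hx
  let z : ∀ i, Σ t : 𝒰.X i ⟶ S, P.obj t := fun i => x (𝒰.f i) (.mk i)
  have hz : ∀ i j, (⟨pullback.fst (𝒰.f i) (𝒰.f j) ≫ (z i).1,
      P.res (pullback.fst (𝒰.f i) (𝒰.f j)) (z i).2⟩ : Σ t : pullback (𝒰.f i) (𝒰.f j) ⟶ S,
        P.obj t) = ⟨pullback.snd (𝒰.f i) (𝒰.f j) ≫ (z j).1,
      P.res (pullback.snd (𝒰.f i) (𝒰.f j)) (z j).2⟩ := fun i j =>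
    hx (pullback.fst (𝒰.f i) (𝒰.f j)) (pullback.snd (𝒰.f i) (𝒰.f j)) (.mk i) (.mk j)
      pullback.condition
  let t : Y ⟶ S := 𝒰.glueMorphisms (fun i => (z i).1) fun i j => congrArg Sigma.fst (hz i j)
  have ht : ∀ i, 𝒰.f i ≫ t = (z i).1 := fun i => 𝒰.ι_glueMorphisms _ _ i
  let w : ∀ i, P.obj (𝒰.f i ≫ t) := fun i =>
    P.map ⟨𝟙 _, by rw [Category.id_comp, ht]⟩ (z i).2
  obtain ⟨y, hy⟩ := hP.glue t 𝒰 w (by
    intro i j
    have h1 := P.sigma_snd (hz i j)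
    have h2 := congrArg (P.map (t' := pullback.fst (𝒰.f i) (𝒰.f j) ≫ 𝒰.f i ≫ t)
      ⟨𝟙 _, by
        rw [Category.id_comp, ht i]
        exact (congrArg Sigma.fst (hz i j)).symm⟩) h1
    dsimp only [w, res] at h2 ⊢
    rw [P.map_comp, P.map_comp, P.map_comp] at h2
    rw [P.map_comp, P.map_comp]
    refine (P.map_congr ?_ _ _ _).trans (h2.trans (P.map_congr ?_ _ _ _))
    · simp
    · simp)
  refine ⟨⟨t, y⟩, ?_, ?_⟩
  · rintro Z g ⟨i⟩
    refine P.sigma_ext (ht i) ?_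
    have h1 : P.res (𝒰.f i) y = w i := hy i
    show P.map (⟨𝟙 (𝒰.X i), _⟩ : SchemeHomOver (z i).1 (𝒰.f i ≫ t)) (P.res (𝒰.f i) y) = (z i).2
    rw [h1]
    dsimp only [w]
    rw [P.map_comp]
    exact (P.map_congr (Category.id_comp _) _ (Category.id_comp _) _).trans
      (P.map_id _ (z i).2)
  · rintro ⟨t', y'⟩ h'
    have h1 : ∀ i, (⟨𝒰.f i ≫ t', P.res (𝒰.f i) y'⟩ : Σ t : 𝒰.X i ⟶ S, P.obj t) = z i :=
      fun i => h' (𝒰.f i) (.mk i)
    have e : t' = t := by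
      apply 𝒰.hom_ext
      intro i
      rw [ht i]
      exact congrArg Sigma.fst (h1 i)
    subst e
    congr 1
    apply hP.sep _ 𝒰
    intro i
    rw [hy i]
    have h2 := P.sigma_snd (h1 i)
    dsimp only [w]
    rw [← h2, P.map_comp]
    symm
    exact (P.map_congr (Category.id_comp _) _ (Category.id_comp _) _).trans
      (P.map_id _ _)

/-- the Zariski sheaf of a relative functor -/
def shf (hP : P.IsZ) : Sheaf Scheme.zariskiTopology.{u} (Type u) :=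
  ⟨P.tot, (isSheaf_iff_isSheaf_of_type _ _).2 (isSheaf_tot hP)⟩

theorem pb_shf (hP : P.IsZ) {T T' : Scheme.{u}} (g : T' ⟶ T) (t : T ⟶ S) (x : P.obj t) :
    pb (shf hP) g (⟨t, x⟩ : Σ t : T ⟶ S, P.obj t) = ⟨g ≫ t, P.res g x⟩ := rfl

/-- the chart given by an element of the functor -/
def qmap (hP : P.IsZ) {Y : Scheme.{u}} (s : Y ⟶ S) (e : P.obj s) :
    yoneda.obj Y ⟶ (shf hP).obj :=
  yonedaEquiv.symm (⟨s, e⟩ : Σ t : Y ⟶ S, P.obj t)

theorem cv_qmap (hP : P.IsZ) {Y T : Scheme.{u}} (s : Y ⟶ S) (e : P.obj s) (a : T ⟶ Y) :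
    cv (qmap hP s e) a = (⟨a ≫ s, P.res a e⟩ : Σ t : T ⟶ S, P.obj t) := rfl

theorem sigma_eq_iff {T : Scheme.{u}} {t t' : T ⟶ S} {x : P.obj t} {y : P.obj t'} :
    (⟨t, x⟩ : Σ t : T ⟶ S, P.obj t) = ⟨t', y⟩ ↔
      ∃ e : t = t', P.map (⟨𝟙 T, by rw [Category.id_comp, e]⟩ : SchemeHomOver t' t) x = y := by
  constructor
  · intro h
    exact ⟨congrArg Sigma.fst h, P.sigma_snd h⟩
  · rintro ⟨e, h⟩
    exact P.sigma_ext e h

/-- a map to a chart over `S` -/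
theorem cv_qmap_eq_iff (hP : P.IsZ) {Y T : Scheme.{u}} (s : Y ⟶ S) (e : P.obj s) (a : T ⟶ Y)
    (t : T ⟶ S) (h : P.obj t) :
    cv (qmap hP s e) a = (⟨t, h⟩ : Σ t : T ⟶ S, P.obj t) ↔
      ∃ w : a ≫ s = t, P.map (⟨a, w⟩ : SchemeHomOver t s) e = h := by
  rw [cv_qmap]
  refine (sigma_eq_iff (P := P) (x := P.res a e) (y := h)).trans ?_
  constructor
  · rintro ⟨w, h1⟩
    refine ⟨w, ?_⟩
    rw [← h1]
    unfold res
    rw [P.map_comp]
    exact P.map_congr (Category.id_comp _).symm _ _ _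
  · rintro ⟨w, h1⟩
    refine ⟨w, ?_⟩
    rw [← h1]
    unfold res
    rw [P.map_comp]
    exact P.map_congr (Category.id_comp _) _ _ _

/-- **relative local representability**: a Zariski sheaf on schemes over `S` with affine charts,
checked on affine schemes and on algebraically closed fields. -/
theorem exists_universal (hP : P.IsZ) {ι : Type u} (R : ι → CommRingCat.{u})
    (s : ∀ i, Spec (R i) ⟶ S) (e : ∀ i, P.obj (s i))
    (hm : ∀ i (B : CommRingCat.{u}) (t : Spec B ⟶ S) (a b : SchemeHomOver t (s i)),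
      P.map a (e i) = P.map b (e i) → a = b)
    (ho : ∀ i (B : CommRingCat.{u}) (t : Spec B ⟶ S) (h : P.obj t), ∃ U : (Spec B).Opens,
      ∀ (B' : CommRingCat.{u}) (g : Spec B' ⟶ Spec B),
        (∀ y, g y ∈ U) ↔ ∃ a : SchemeHomOver (g ≫ t) (s i), P.map a (e i) = P.res g h)
    (hc : ∀ (κ : Type u) [Field κ] [IsAlgClosed κ] (t : Spec (CommRingCat.of κ) ⟶ S)
      (h : P.obj t), ∃ i, ∃ a : SchemeHomOver t (s i), P.map a (e i) = h) :
    ∃ (J : Scheme.{u}) (p : J ⟶ S) (univ : P.obj p),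
      (∀ {T : Scheme.{u}} (t : T ⟶ S) (h : P.obj t), ∃! g : SchemeHomOver t p,
        P.map g univ = h) ∧
      ∃ j : ∀ i, SchemeHomOver (s i) p, (∀ i, IsOpenImmersion (j i).1) ∧
        (∀ y : J, ∃ i, y ∈ Set.range (j i).1) ∧ ∀ i, P.map (j i) univ = e i := by
  have ho' : ∀ i (B : CommRingCat.{u}) (h : (shf hP).obj.obj (op (Spec B))),
      ∃ U : (Spec B).Opens, ∀ (B' : CommRingCat.{u}) (g : Spec B' ⟶ Spec B),
      (∀ y, g y ∈ U) ↔ ∃ a : Spec B' ⟶ Spec (R i),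
        cv (qmap hP (s i) (e i)) a = pb (shf hP) g h := by
    rintro i B ⟨t, h⟩
    obtain ⟨U, hU⟩ := ho i B t h
    refine ⟨U, fun B' g => (hU B' g).trans ?_⟩
    constructor
    · rintro ⟨⟨a, w⟩, ha⟩
      exact ⟨a, (cv_qmap_eq_iff hP _ _ a (g ≫ t) _).2 ⟨w, ha⟩⟩
    · rintro ⟨a, ha⟩
      obtain ⟨w, h1⟩ := (cv_qmap_eq_iff hP _ _ a (g ≫ t) _).1 ha
      exact ⟨⟨a, w⟩, h1⟩
  have hm' : ∀ i (B : CommRingCat.{u}) (a b : Spec B ⟶ Spec (R i)),
      cv (qmap hP (s i) (e i)) a = cv (qmap hP (s i) (e i)) b → a = b := by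
    intro i B a b h
    rw [cv_qmap hP (s i) (e i) b] at h
    obtain ⟨w, h1⟩ := (cv_qmap_eq_iff hP _ _ a (b ≫ s i) _).1 h
    have := hm i B (b ≫ s i) ⟨a, w⟩ ⟨b, rfl⟩ h1
    exact congrArg Subtype.val this
  have hc' : ∀ (κ : Type u) [Field κ] (h : (shf hP).obj.obj (op (Spec (CommRingCat.of κ)))),
      ∃ i, ∃ a : Spec (CommRingCat.of κ) ⟶ Spec (R i), cv (qmap hP (s i) (e i)) a = h := by
    intro κ _ h
    obtain ⟨t, h⟩ := h
    let κ' : Type u := AlgebraicClosure κ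
    let φ : CommRingCat.of κ ⟶ CommRingCat.of κ' := CommRingCat.ofHom (algebraMap κ κ')
    obtain ⟨i, a, ha⟩ := hc κ' (Spec.map φ ≫ t) (P.res (Spec.map φ) h)
    obtain ⟨U, hU⟩ := ho i _ t h
    have h1 := (hU _ (Spec.map φ)).2 ⟨a, ha⟩
    have h2 : ∀ z : Spec (CommRingCat.of κ), z ∈ U := by
      intro z
      have := h1 (IsLocalRing.closedPoint κ')
      have e : (Spec.map φ) (IsLocalRing.closedPoint κ') = z :=
        Subsingleton.elim (α := PrimeSpectrum κ) _ _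
      rwa [e] at this
    obtain ⟨⟨b, w⟩, hb⟩ := (hU _ (𝟙 _)).1 (fun z => h2 _)
    refine ⟨i, b, (cv_qmap_eq_iff hP _ _ b t h).2 ⟨by rw [w, Category.id_comp], ?_⟩⟩
    have h3 := congrArg (P.map (⟨𝟙 _, by simp⟩ :
      SchemeHomOver t (𝟙 (Spec (CommRingCat.of κ)) ≫ t))) hb
    unfold res at h3
    rw [P.map_comp, P.map_comp] at h3
    refine (P.map_congr (Category.id_comp _).symm _ _ _).trans (h3.trans ?_)
    exact (P.map_congr (Category.id_comp _) _ (Category.id_comp _) _).trans (P.map_id _ _)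
  obtain ⟨J, r, j, hj1, hj2, hj3⟩ := exists_representableBy
    (F := shf hP) (fun i => qmap hP (s i) (e i)) hm' ho' hc'
  let z : Σ p : J ⟶ S, P.obj p := r.homEquiv (𝟙 J)
  have key : ∀ {T : Scheme.{u}} (g : T ⟶ J) (t : T ⟶ S) (h : P.obj t),
      (r.homEquiv g = (⟨t, h⟩ : Σ t : T ⟶ S, P.obj t)) ↔
        ∃ w : g ≫ z.1 = t, P.map (⟨g, w⟩ : SchemeHomOver t z.1) z.2 = h := by
    intro T g t h
    have h1 : r.homEquiv g = (⟨g ≫ z.1, P.res g z.2⟩ : Σ t : T ⟶ S, P.obj t) := by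
      rw [r.homEquiv_eq]
      rfl
    rw [h1]
    exact cv_qmap_eq_iff hP z.1 z.2 g t h
  refine ⟨J, z.1, z.2, ?_, ?_⟩
  · intro T t h
    obtain ⟨w, h1⟩ := (key (r.homEquiv.symm (⟨t, h⟩ : Σ t : T ⟶ S, P.obj t)) t h).1
      (r.homEquiv.apply_symm_apply _)
    refine ⟨⟨_, w⟩, h1, ?_⟩
    rintro ⟨g, w'⟩ h2
    apply Subtype.ext
    apply r.homEquiv.injective
    rw [(key g t h).2 ⟨w', h2⟩]
    exact (r.homEquiv.apply_symm_apply _).symm
  · have h4 : ∀ i, ∃ w : j i ≫ z.1 = s i,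
        P.map (⟨j i, w⟩ : SchemeHomOver (s i) z.1) z.2 = e i := by
      intro i
      refine (key (j i) (s i) (e i)).1 ?_
      rw [hj3 i]
      exact (cv_qmap_eq_iff hP _ _ _ _ _).2 ⟨Category.id_comp _, P.map_id _ _⟩
    exact ⟨fun i => ⟨j i, (h4 i).1⟩, hj1, hj2, fun i => (h4 i).2⟩

end RelFun

/-- properties local at the source can be checked on charts -/
theorem of_charts {Q : MorphismProperty Scheme.{u}} [IsZariskiLocalAtSource Q] {J S : Scheme.{u}}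
    (p : J ⟶ S) {ι : Type u} {Y : ι → Scheme.{u}} (j : ∀ i, Y i ⟶ J)
    (hj : ∀ i, IsOpenImmersion (j i)) (hc : ∀ y : J, ∃ i, y ∈ Set.range (j i))
    (h : ∀ i, Q (j i ≫ p)) : Q p := by
  let 𝒰 : Scheme.OpenCover.{u, u} J := Scheme.Cover.mkOfCovers ι Y j hc hj
  exact (IsZariskiLocalAtSource.iff_of_openCover 𝒰).2 h

end Fermat.Agent.JH

end
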