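import Fermat.Agent.JH.Charts
import Fermat.Agent.JPC.FromLD2
import Fermat.Agent.JPC.LDchart
import Fermat.Agent.JGI.LD
import Fermat.Agent.JG4.Inj
import Fermat.Agent.JG1.Univ
import Fermat.Agent.JG4.BC

/-!
# S25, block H: instances of the chart interfaces
-/

set_option autoImplicit false

noncomputable section

universe u

open TensorProduct

namespace Fermat.Agent.JH

open Fermat.Agent.JPC

variable {k : Type u} [Field k] {X : TwoChart k}

/-- the chart facts -/
theorem gFacts (X : TwoChart k) : GFacts X where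
  isLine Φ := JGI.isLine_toLD Φ
  inChart Φ := Φ.inChart
  ex L _ hc := by
    obtain ⟨Φ, ⟨f⟩⟩ := PreLD.InChart.exists_iso hc
    exact ⟨Φ, ⟨isoSymm f⟩⟩
  inj Φ Φ' h := JG4.eq_of_nonempty_iso (JGI.isLine_toLD Φ) h

/-- the chart algebra, given the base change of the line data of matrix points (G5) -/
def chartAlgOf (ι : Idx X)
    (h5 : ∀ {B B' : Type u} [CommRing B] [Algebra k B] [CommRing B'] [Algebra k B']
      [Algebra B B'] [IsScalarTower k B B'] (Φ : MPt X ι B),
      Nonempty ((Φ.toLD.baseChange B').Iso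
        (JG1.MPtMap Φ (IsScalarTower.toAlgHom k B B')).toLD)) : ChartAlg X ι where
  H := JG1.H ι
  pt φ := JG1.MPtMap (JG1.univ ι) φ
  bij := JG1.bijective_univ
  bc φ := by
    rw [JG1.MPtMap_comp]
    exact h5 _
  ft := JG1.finiteType

/-- **the chart algebras** -/
def chartAlg (ι : Idx X) : ChartAlg X ι :=
  chartAlgOf ι fun {_ B'} _ _ _ _ _ _ Φ => JG4.nonempty_bcIso B' Φ

end Fermat.Agent.JH

end
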