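import Fermat.Agent.JPC.Chart

/-!
# S25, block H: isomorphisms of line data and the chart condition
-/

set_option autoImplicit false

universe u

open TensorProduct Polynomial

namespace Fermat.Agent.JH

open Fermat.Agent.JPC

variable {k : Type u} [Field k] {X : TwoChart k} {B : Type u} [CommRing B] [Algebra k B]

/-- identity -/
def isoRefl (L : PreLD X B) : L.Iso L where
  e := LinearEquiv.refl B L.M
  smul _ _ := rfl
  map0 := Submodule.map_id _
  map1 := Submodule.map_id _

/-- inverse -/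
def isoSymm {L L' : PreLD X B} (f : L.Iso L') : L'.Iso L where
  e := f.e.symm
  smul a m := by
    apply f.e.injective
    rw [f.smul, LinearEquiv.apply_symm_apply, LinearEquiv.apply_symm_apply]
  map0 := by
    rw [← f.map0, ← Submodule.map_comp]
    convert Submodule.map_id _
    ext m
    simp
  map1 := by
    rw [← f.map1, ← Submodule.map_comp]
    convert Submodule.map_id _
    ext m
    simp

/-- composite -/
def isoTrans {L L' L'' : PreLD X B} (f : L.Iso L') (g : L'.Iso L'') : L.Iso L'' where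
  e := f.e.trans g.e
  smul a m := by
    show g.e (f.e (a • m)) = a • g.e (f.e m)
    rw [f.smul, g.smul]
  map0 := by
    have : ((f.e.trans g.e : L.M ≃ₗ[B] L''.M) : L.M →ₗ[B] L''.M) =
        (g.e : L'.M →ₗ[B] L''.M) ∘ₗ (f.e : L.M →ₗ[B] L'.M) := rfl
    rw [this, Submodule.map_comp, f.map0, g.map0]
  map1 := by
    have : ((f.e.trans g.e : L.M ≃ₗ[B] L''.M) : L.M →ₗ[B] L''.M) =
        (g.e : L'.M →ₗ[B] L''.M) ∘ₗ (f.e : L.M →ₗ[B] L'.M) := rfl
    rw [this, Submodule.map_comp, f.map1, g.map1]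

variable {L L' : PreLD X B}

theorem iso_mem0 (f : L.Iso L') (m : L.M) : f.e m ∈ L'.M0 ↔ m ∈ L.M0 := by
  rw [← f.map0]
  constructor
  · rintro ⟨m', hm', e⟩
    rwa [← f.e.injective e]
  · intro h
    exact ⟨m, h, rfl⟩

theorem iso_mem1 (f : L.Iso L') (m : L.M) : f.e m ∈ L'.M1 ↔ m ∈ L.M1 := by
  rw [← f.map1]
  constructor
  · rintro ⟨m', hm', e⟩
    rwa [← f.e.injective e]
  · intro h
    exact ⟨m, h, rfl⟩

theorem iso_memW (f : L.Iso L') (m : L.M) : f.e m ∈ L'.W ↔ m ∈ L.W := by
  constructor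
  · rintro ⟨h0, m', hm', e⟩
    refine ⟨(iso_mem0 f m).1 h0, f.e.symm m', ?_, ?_⟩
    · have := (iso_mem1 f (f.e.symm m')).1
      rw [LinearEquiv.apply_symm_apply] at this
      exact this hm'
    · apply f.e.injective
      have e' : (X.t : X.A) • m' = f.e m := e
      show f.e ((X.t : X.A) • f.e.symm m') = f.e m
      rw [f.smul, LinearEquiv.apply_symm_apply, e']
  · rintro ⟨h0, m', hm', e⟩
    refine ⟨(iso_mem0 f m).2 h0, f.e m', (iso_mem1 f m').2 hm', ?_⟩
    have e' : (X.t : X.A) • m' = m := e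
    show (X.t : X.A) • f.e m' = f.e m
    rw [← f.smul, e']

/-- transport of a rigidification -/
def rigIso (f : L.Iso L') (r : L.Rig) : L'.Rig where
  lam :=
    { toFun := fun m => r.lam ⟨f.e.symm m, by
        have := (iso_mem0 f (f.e.symm (m : L'.M))).1
        rw [LinearEquiv.apply_symm_apply] at this
        exact this m.2⟩
      map_add' := fun m n => by
        rw [← map_add]
        congr 1
        exact Subtype.ext (map_add _ _ _)
      map_smul' := fun b m => by
        rw [RingHom.id_apply, ← map_smul]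
        congr 1
        exact Subtype.ext (map_smul _ _ _) }
  smul a m := by
    show r.lam ⟨f.e.symm ((a : X.A) • (m : L'.M)), _⟩ = _
    have := r.smul a ⟨f.e.symm m, by
        have := (iso_mem0 f (f.e.symm (m : L'.M))).1
        rw [LinearEquiv.apply_symm_apply] at this
        exact this m.2⟩
    refine Eq.trans ?_ this
    congr 1
    exact Subtype.ext ((isoSymm f).smul a m)
  surj b := by
    obtain ⟨m, rfl⟩ := r.surj b
    refine ⟨⟨f.e m, (iso_mem0 f m).2 m.2⟩, ?_⟩
    show r.lam ⟨f.e.symm (f.e m), _⟩ = r.lam m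
    congr 1
    exact Subtype.ext (LinearEquiv.symm_apply_apply _ _)

theorem acyclic_iso (f : L.Iso L') (h : L.Acyclic) : L'.Acyclic := by
  unfold PreLD.Acyclic at h ⊢
  rw [← f.map0, ← f.map1]
  exact (Submodule.orderIsoMapComap f.e).isCompl h

theorem p0_iso (f : L.Iso L') (h : L.Acyclic) (h' : L'.Acyclic) (m : L.M) :
    ((h'.p0 (f.e m) : L'.M0) : L'.M) = f.e (h.p0 m : L.M0) := by
  have h1 : m = (h.p0 m : L.M) + (m - (h.p0 m : L.M)) := by abel
  have h2 : m - (h.p0 m : L.M) ∈ L.M1 := by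
    have : h.p0 (m - (h.p0 m : L.M)) = 0 := by
      rw [map_sub]
      have : h.p0 ((h.p0 m : L.M0) : L.M) = h.p0 m :=
        Submodule.projectionOnto_apply_left h (h.p0 m)
      rw [this, sub_self]
    exact (Submodule.projectionOnto_apply_eq_zero_iff h).1 this
  have h3 : h'.p0 (f.e (m - (h.p0 m : L.M))) = 0 :=
    (Submodule.projectionOnto_apply_eq_zero_iff h').2 ((iso_mem1 f _).2 h2)
  have h4 : h'.p0 (f.e ((h.p0 m : L.M0) : L.M)) =
      ⟨f.e (h.p0 m : L.M0), (iso_mem0 f _).2 (h.p0 m).2⟩ :=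
    Submodule.projectionOnto_apply_left h' ⟨f.e (h.p0 m : L.M0), (iso_mem0 f _).2 (h.p0 m).2⟩
  conv_lhs => rw [h1]
  rw [map_add, map_add, h3, h4, add_zero]

theorem inChart_iso (f : L.Iso L') {ι : Idx X} (h : L.InChart ι) : L'.InChart ι := by
  obtain ⟨ha, r, hb⟩ := h
  refine ⟨acyclic_iso f ha, rigIso f r, ?_⟩
  let eW : L.W ≃ L'.W :=
    { toFun := fun w => ⟨f.e w, (iso_memW f w).2 w.2⟩
      invFun := fun w => ⟨f.e.symm w, by
        rw [← iso_memW f, LinearEquiv.apply_symm_apply]
        exact w.2⟩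
      left_inv := fun w => Subtype.ext (LinearEquiv.symm_apply_apply _ _)
      right_inv := fun w => Subtype.ext (LinearEquiv.apply_symm_apply _ _) }
  have key : ∀ w : L.W, (acyclic_iso f ha).coord (rigIso f r) ι (eW w) = ha.coord r ι w := by
    intro w
    funext i
    show r.lam ⟨f.e.symm ((acyclic_iso f ha).p0 (ι.c i • f.e (w : L.M)) : L'.M0), _⟩ =
      r.lam (ha.p0 (ι.c i • (w : L.M)))
    congr 1
    apply Subtype.ext
    show f.e.symm ((acyclic_iso f ha).p0 (ι.c i • f.e (w : L.M)) : L'.M0) =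
      ((ha.p0 (ι.c i • (w : L.M)) : L.M0) : L.M)
    rw [← f.smul, p0_iso f ha, LinearEquiv.symm_apply_apply]
  have h2 : (acyclic_iso f ha).coord (rigIso f r) ι ∘ eW = ha.coord r ι := funext key
  have h3 : Function.Bijective (((acyclic_iso f ha).coord (rigIso f r) ι) ∘ eW) := by
    rw [h2]; exact hb
  exact (Function.Bijective.of_comp_iff _ eW.bijective).1 h3

end Fermat.Agent.JH
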