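import Fermat.Agent.JH.Rel
import Fermat.Agent.JH.IsoLD
import Fermat.Agent.JPC.LDof

/-!
# S25, block H: assembly of the charts, representability of the rigidified Picard functor
-/

set_option autoImplicit false

noncomputable section

universe u

open CategoryTheory CategoryTheory.Limits Opposite AlgebraicGeometry NeronModelInfra TensorProduct

namespace Fermat.Agent.JH

open Fermat.Agent.JPC

section Structure

variable (k : Type u) [Field k]

/-- the structure morphism of `Spec B` -/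
def sB (B : Type u) [CommRing B] [Algebra k B] :
    Spec (CommRingCat.of B) ⟶ Spec (CommRingCat.of k) :=
  Spec.map (CommRingCat.ofHom (algebraMap k B))

/-- the morphism `Spec B' ⟶ Spec B` over `Spec k` of an algebra homomorphism -/
def sMap {B B' : Type u} [CommRing B] [CommRing B'] [Algebra k B] [Algebra k B']
    (φ : B →ₐ[k] B') : SchemeHomOver (sB k B') (sB k B) :=
  ⟨Spec.map (CommRingCat.ofHom (φ : B →+* B')), by
    unfold sB
    rw [← Spec.map_comp, ← CommRingCat.ofHom_comp]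
    congr 2
    exact φ.comp_algebraMap⟩

/-- the structure morphism as a morphism over `Spec k` -/
def sOne {T : Scheme.{u}} (t : T ⟶ Spec (CommRingCat.of k)) :
    SchemeHomOver t (𝟙 (Spec (CommRingCat.of k))) := ⟨t, Category.comp_id _⟩

variable {k}

theorem sMap_surjective {B B' : Type u} [CommRing B] [CommRing B'] [Algebra k B] [Algebra k B']
    (a : SchemeHomOver (sB k B') (sB k B)) : ∃ φ : B →ₐ[k] B', sMap k φ = a := by
  obtain ⟨a, ha⟩ := a
  obtain ⟨ψ, rfl⟩ := Spec.map_surjective a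
  unfold sB at ha
  rw [← Spec.map_comp] at ha
  have h1 := Spec.map_injective ha
  have h2 : ψ.hom.comp (algebraMap k B) = algebraMap k B' := congrArg CommRingCat.Hom.hom h1
  exact ⟨{ ψ.hom with commutes' := fun c => RingHom.congr_fun h2 c }, rfl⟩

theorem sMap_injective {B B' : Type u} [CommRing B] [CommRing B'] [Algebra k B] [Algebra k B']
    {φ ψ : B →ₐ[k] B'} (h : sMap k φ = sMap k ψ) : φ = ψ := by
  have h1 := Spec.map_injective (congrArg Subtype.val h)
  have h2 : (φ : B →+* B') = (ψ : B →+* B') := congrArg CommRingCat.Hom.hom h1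
  ext x
  exact RingHom.congr_fun h2 x

end Structure

variable {k : Type u} [Field k] (X : TwoChart k)

/-- the universal matrix point of a chart -/
structure ChartAlg (ι : Idx X) where
  H : Type u
  [cr : CommRing H]
  [alg : Algebra k H]
  pt : ∀ {B : Type u} [CommRing B] [Algebra k B], (H →ₐ[k] B) → MPt X ι B
  bij : ∀ {B : Type u} [CommRing B] [Algebra k B], Function.Bijective (pt (B := B))
  bc : ∀ {B B' : Type u} [CommRing B] [Algebra k B] [CommRing B'] [Algebra k B'] [Algebra B B']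
    [IsScalarTower k B B'] (φ : H →ₐ[k] B), Nonempty (((pt φ).toLD.baseChange B').Iso
      (pt ((IsScalarTower.toAlgHom k B B').comp φ)).toLD)
  ft : Algebra.FiniteType k H

attribute [instance] ChartAlg.cr ChartAlg.alg

/-- the chart condition is exactly: comes from a (unique) matrix point -/
structure GFacts : Prop where
  isLine : ∀ {ι : Idx X} {B : Type u} [CommRing B] [Algebra k B] (Φ : MPt X ι B), Φ.toLD.IsLine
  inChart : ∀ {ι : Idx X} {B : Type u} [CommRing B] [Algebra k B] (Φ : MPt X ι B),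
    Φ.toLD.InChart ι
  ex : ∀ {ι : Idx X} {B : Type u} [CommRing B] [Algebra k B] (L : PreLD X B), L.IsLine →
    L.InChart ι → ∃ Φ : MPt X ι B, Nonempty (L.Iso Φ.toLD)
  inj : ∀ {ι : Idx X} {B : Type u} [CommRing B] [Algebra k B] (Φ Φ' : MPt X ι B),
    Nonempty (Φ.toLD.Iso Φ'.toLD) → Φ = Φ'

/-- dictionary between a relative functor with values in groups and line data -/
structure Dict (P : RelFun (Spec (CommRingCat.of k)))
    [∀ {T : Scheme.{u}} (t : T ⟶ Spec (CommRingCat.of k)), CommGroup (P.obj t)] where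
  rel : ∀ {B : Type u} [CommRing B] [Algebra k B], P.obj (sB k B) → PreLD X B → Prop
  ex : ∀ {B : Type u} [CommRing B] [Algebra k B] (h : P.obj (sB k B)), ∃ L, rel h L
  isLine : ∀ {B : Type u} [CommRing B] [Algebra k B] {h : P.obj (sB k B)} {L : PreLD X B},
    rel h L → L.IsLine
  rig : ∀ {B : Type u} [CommRing B] [Algebra k B] {h : P.obj (sB k B)} {L : PreLD X B},
    rel h L → Nonempty L.Rig
  eq_iff : ∀ {B : Type u} [CommRing B] [Algebra k B] {h h' : P.obj (sB k B)}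
    {L L' : PreLD X B}, rel h L → rel h' L' → (h = h' ↔ Nonempty (L.Iso L'))
  ex' : ∀ {B : Type u} [CommRing B] [Algebra k B] (L : PreLD X B), L.IsLine →
    Nonempty L.Rig → ∃ h, rel h L
  bc : ∀ {B B' : Type u} [CommRing B] [Algebra k B] [CommRing B'] [Algebra k B'] [Algebra B B']
    [IsScalarTower k B B'] {h : P.obj (sB k B)} {L : PreLD X B}, rel h L →
      rel (P.map (sMap k (IsScalarTower.toAlgHom k B B')) h) (L.baseChange B')
  twist : ∀ {K : Type u} [Field K] [IsAlgClosed K] [Algebra k K] {h : P.obj (sB k K)}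
    {L : PreLD X K}, rel h L → ∀ (n : ℕ) (l : List (X.A →ₐ[k] k)),
      ∃ N : P.obj (𝟙 (Spec (CommRingCat.of k))),
        rel (h * P.map (sOne k (sB k K)) N) ((L.twistInf n).twistPts l)

variable {X}

section Main

variable {P : RelFun (Spec (CommRingCat.of k))}
  [∀ {T : Scheme.{u}} (t : T ⟶ Spec (CommRingCat.of k)), CommGroup (P.obj t)]
  (D : Dict X P) (G : ∀ ι : Idx X, ChartAlg X ι) (hG : GFacts X)

/-- the universal class of a chart -/
def uCl (ι : Idx X) : P.obj (sB k (G ι).H) :=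
  (D.ex' ((G ι).pt (AlgHom.id k (G ι).H)).toLD (hG.isLine _)
    ⟨(hG.inChart ((G ι).pt (AlgHom.id k (G ι).H))).choose_spec.choose⟩).choose

theorem uCl_spec (ι : Idx X) : D.rel (uCl D G hG ι) ((G ι).pt (AlgHom.id k (G ι).H)).toLD :=
  (D.ex' ((G ι).pt (AlgHom.id k (G ι).H)).toLD (hG.isLine _)
    ⟨(hG.inChart ((G ι).pt (AlgHom.id k (G ι).H))).choose_spec.choose⟩).choose_spec

/-- the pull-back of the universal class -/
theorem uCl_map (ι : Idx X) {B : Type u} [CommRing B] [Algebra k B] (φ : (G ι).H →ₐ[k] B)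
    (h : P.obj (sB k B)) (L : PreLD X B) (hL : D.rel h L) :
    P.map (sMap k φ) (uCl D G hG ι) = h ↔ Nonempty (L.Iso ((G ι).pt φ).toLD) := by
  let : Algebra (G ι).H B := φ.toRingHom.toAlgebra
  have : IsScalarTower k (G ι).H B := IsScalarTower.of_algebraMap_eq' φ.comp_algebraMap.symm
  have e : IsScalarTower.toAlgHom k (G ι).H B = φ := by
    ext x
    rfl
  have h1 := D.bc (B' := B) (uCl_spec D G hG ι)
  rw [e] at h1
  obtain ⟨i⟩ := (G ι).bc (B' := B) (AlgHom.id k (G ι).H)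
  rw [e, AlgHom.comp_id] at i
  rw [D.eq_iff h1 hL]
  constructor
  · rintro ⟨f⟩
    exact ⟨isoTrans (isoSymm f) i⟩
  · rintro ⟨f⟩
    exact ⟨isoTrans i (isoSymm f)⟩

variable (hmul : ∀ {T T' : Scheme.{u}} {t : T ⟶ Spec (CommRingCat.of k)}
  {t' : T' ⟶ Spec (CommRingCat.of k)} (g : SchemeHomOver t' t) (x y : P.obj t),
  P.map g (x * y) = P.map g x * P.map g y)

/-- the classes of the translated charts -/
def eCl (i : P.obj (𝟙 (Spec (CommRingCat.of k))) × Idx X) : P.obj (sB k (G i.2).H) :=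
  uCl D G hG i.2 * (P.map (sOne k (sB k (G i.2).H)) i.1)⁻¹

include hmul in
theorem map_inv' {T T' : Scheme.{u}} {t : T ⟶ Spec (CommRingCat.of k)}
    {t' : T' ⟶ Spec (CommRingCat.of k)} (g : SchemeHomOver t' t) (x : P.obj t) :
    P.map g x⁻¹ = (P.map g x)⁻¹ :=
  map_inv (MonoidHom.mk' (P.map g) (hmul g)) x

include hmul in
theorem eCl_map (i : P.obj (𝟙 (Spec (CommRingCat.of k))) × Idx X) {T : Scheme.{u}}
    {t : T ⟶ Spec (CommRingCat.of k)} (a : SchemeHomOver t (sB k (G i.2).H)) (h : P.obj t) :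
    P.map a (eCl D G hG i) = h ↔ P.map a (uCl D G hG i.2) = h * P.map (sOne k t) i.1 := by
  have h1 : P.map a (P.map (sOne k (sB k (G i.2).H)) i.1) = P.map (sOne k t) i.1 := by
    rw [P.map_comp]
    exact P.map_congr a.2 _ _ _
  rw [eCl, hmul, map_inv' hmul, h1, mul_inv_eq_iff_eq_mul]

include hmul in
theorem hm_alg (i : P.obj (𝟙 (Spec (CommRingCat.of k))) × Idx X) {B : Type u} [CommRing B]
    [Algebra k B] (a b : SchemeHomOver (sB k B) (sB k (G i.2).H))
    (h : P.map a (eCl D G hG i) = P.map b (eCl D G hG i)) : a = b := by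
  rw [eCl_map D G hG hmul] at h
  have h2 := (eCl_map D G hG hmul i b _).1 rfl
  rw [← h2] at h
  obtain ⟨φ, rfl⟩ := sMap_surjective a
  obtain ⟨ψ, rfl⟩ := sMap_surjective b
  obtain ⟨L, hL⟩ := D.ex (P.map (sMap k ψ) (uCl D G hG i.2))
  obtain ⟨f⟩ := (uCl_map D G hG i.2 φ _ L hL).1 h
  obtain ⟨g⟩ := (uCl_map D G hG i.2 ψ _ L hL).1 rfl
  have h3 := hG.inj _ _ ⟨isoTrans (isoSymm f) g⟩
  rw [(G i.2).bij.1 h3]

include hmul in
theorem ho_alg (hF : FStmt X) (i : P.obj (𝟙 (Spec (CommRingCat.of k))) × Idx X) {B : Type u}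
    [CommRing B] [Algebra k B] (h : P.obj (sB k B)) :
    ∃ U : (Spec (CommRingCat.of B)).Opens, ∀ (B' : Type u) [CommRing B'] [Algebra k B']
      (ψ : B →ₐ[k] B'), (∀ y, (sMap k ψ).1 y ∈ U) ↔
        ∃ a : SchemeHomOver (sB k B') (sB k (G i.2).H),
          P.map a (eCl D G hG i) = P.map (sMap k ψ) h := by
  obtain ⟨L, hL⟩ := D.ex (h * P.map (sOne k (sB k B)) i.1)
  obtain ⟨I, hI⟩ := hF B L (D.isLine hL) (D.rig hL) i.2
  refine ⟨⟨(PrimeSpectrum.zeroLocus (I : Set B))ᶜ,
    (PrimeSpectrum.isClosed_zeroLocus _).isOpen_compl⟩, ?_⟩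
  intro B' _ _ ψ
  let : Algebra B B' := ψ.toRingHom.toAlgebra
  have : IsScalarTower k B B' := IsScalarTower.of_algebraMap_eq' ψ.comp_algebraMap.symm
  have e : IsScalarTower.toAlgHom k B B' = ψ := by
    ext x
    rfl
  have h1 : (∀ y, (sMap k ψ).1 y ∈ (⟨(PrimeSpectrum.zeroLocus (I : Set B))ᶜ,
      (PrimeSpectrum.isClosed_zeroLocus _).isOpen_compl⟩ :
        (Spec (CommRingCat.of B)).Opens)) ↔ I.map (algebraMap B B') = ⊤ := by
    rw [← PrimeSpectrum.zeroLocus_empty_iff_eq_top, Set.eq_empty_iff_forall_notMem]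
    refine forall_congr' fun y => ?_
    have h2 : ((sMap k ψ).1 y ∈ (⟨(PrimeSpectrum.zeroLocus (I : Set B))ᶜ,
      (PrimeSpectrum.isClosed_zeroLocus _).isOpen_compl⟩ :
        (Spec (CommRingCat.of B)).Opens)) ↔
        ¬ (I ≤ y.asIdeal.comap (algebraMap B B')) := Iff.rfl
    rw [h2, PrimeSpectrum.mem_zeroLocus, SetLike.coe_subset_coe, Ideal.map_le_iff_le_comap]
  rw [h1, ← hI B']
  have h3 := D.bc (B' := B') hL
  rw [e, hmul] at h3
  have h4 : P.map (sMap k ψ) (P.map (sOne k (sB k B)) i.1) = P.map (sOne k (sB k B')) i.1 := by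
    rw [P.map_comp]
    exact P.map_congr (sMap k ψ).2 _ _ _
  rw [h4] at h3
  constructor
  · intro hc
    obtain ⟨Φ, ⟨f⟩⟩ := hG.ex _ (D.isLine h3) hc
    obtain ⟨φ, rfl⟩ := (G i.2).bij.2 Φ
    exact ⟨sMap k φ, (eCl_map D G hG hmul i _ _).2 ((uCl_map D G hG i.2 φ _ _ h3).2 ⟨f⟩)⟩
  · rintro ⟨a, ha⟩
    obtain ⟨φ, rfl⟩ := sMap_surjective a
    obtain ⟨f⟩ := (uCl_map D G hG i.2 φ _ _ h3).1 ((eCl_map D G hG hmul i _ _).1 ha)
    exact inChart_iso (isoSymm f) (hG.inChart _)

include hmul in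
theorem hc_alg (hI : CoverStmt X) {K : Type u} [Field K] [IsAlgClosed K] [Algebra k K]
    (h : P.obj (sB k K)) : ∃ (i : P.obj (𝟙 (Spec (CommRingCat.of k))) × Idx X)
      (a : SchemeHomOver (sB k K) (sB k (G i.2).H)), P.map a (eCl D G hG i) = h := by
  obtain ⟨L, hL⟩ := D.ex h
  obtain ⟨n, l, ι, hc⟩ := hI K L (D.isLine hL)
  obtain ⟨N, hN⟩ := D.twist hL n l
  obtain ⟨Φ, ⟨f⟩⟩ := hG.ex _ (D.isLine hN) hc
  obtain ⟨φ, rfl⟩ := (G ι).bij.2 Φ
  exact ⟨(N, ι), sMap k φ,
    (eCl_map D G hG hmul (N, ι) _ _).2 ((uCl_map D G hG ι φ _ _ hN).2 ⟨f⟩)⟩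

theorem transport {P : RelFun (Spec (CommRingCat.of k))} {Y : Scheme.{u}}
    {s : Y ⟶ Spec (CommRingCat.of k)} (e : P.obj s)
    {T T' : Scheme.{u}} (g : T' ⟶ T) {t : T ⟶ Spec (CommRingCat.of k)}
    {t' : T' ⟶ Spec (CommRingCat.of k)} (w : g ≫ t = t') (h : P.obj t) :
    (∃ a : SchemeHomOver (g ≫ t) s, P.map a e = P.res g h) ↔
      ∃ a : SchemeHomOver t' s, P.map a e = P.map (⟨g, w⟩ : SchemeHomOver t' t) h := by
  subst w
  rfl

include D G hG hmul in
/-- **representability of the rigidified Picard functor** from the algebraic blocks. -/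
theorem exists_J (hP : P.IsZ) (hF : FStmt X) (hI : CoverStmt X) :
    ∃ (J : Scheme.{u}) (p : J ⟶ Spec (CommRingCat.of k)) (univ : P.obj p),
      (∀ {T : Scheme.{u}} (t : T ⟶ Spec (CommRingCat.of k)) (h : P.obj t),
        ∃! g : SchemeHomOver t p, P.map g univ = h) ∧ LocallyOfFiniteType p := by
  have h1 : ∀ (i : P.obj (𝟙 (Spec (CommRingCat.of k))) × Idx X) (B : CommRingCat.{u})
      (t : Spec B ⟶ Spec (CommRingCat.of k)) (a b : SchemeHomOver t (sB k (G i.2).H)),
      P.map a (eCl D G hG i) = P.map b (eCl D G hG i) → a = b := by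
    intro i B t a b h
    obtain ⟨φ, rfl⟩ := Spec.map_surjective t
    let : Algebra k B := φ.hom.toAlgebra
    exact hm_alg D G hG hmul i (B := B) a b h
  have h2 : ∀ (i : P.obj (𝟙 (Spec (CommRingCat.of k))) × Idx X) (B : CommRingCat.{u})
      (t : Spec B ⟶ Spec (CommRingCat.of k)) (h : P.obj t), ∃ U : (Spec B).Opens,
      ∀ (B' : CommRingCat.{u}) (g : Spec B' ⟶ Spec B), (∀ y, g y ∈ U) ↔
        ∃ a : SchemeHomOver (g ≫ t) (sB k (G i.2).H), P.map a (eCl D G hG i) = P.res g h := by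
    intro i B t h
    obtain ⟨φ, rfl⟩ := Spec.map_surjective t
    let : Algebra k B := φ.hom.toAlgebra
    obtain ⟨U, hU⟩ := ho_alg D G hG hmul hF i (B := B) h
    refine ⟨U, fun B' g => ?_⟩
    obtain ⟨ψ, rfl⟩ := Spec.map_surjective g
    let : Algebra k B' := (φ ≫ ψ).hom.toAlgebra
    let ψ' : B →ₐ[k] B' := { ψ.hom with commutes' := fun c => rfl }
    have w : Spec.map ψ ≫ Spec.map φ = sB k B' := by
      rw [← Spec.map_comp]
      rfl
    rw [transport (P := P) (eCl D G hG i) (Spec.map ψ) w h]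
    exact hU B' ψ'
  have h3 : ∀ (κ : Type u) [Field κ] [IsAlgClosed κ]
      (t : Spec (CommRingCat.of κ) ⟶ Spec (CommRingCat.of k)) (h : P.obj t),
      ∃ (i : P.obj (𝟙 (Spec (CommRingCat.of k))) × Idx X)
        (a : SchemeHomOver t (sB k (G i.2).H)), P.map a (eCl D G hG i) = h := by
    intro κ _ _ t h
    obtain ⟨φ, rfl⟩ := Spec.map_surjective t
    let : Algebra k κ := φ.hom.toAlgebra
    exact hc_alg D G hG hmul hI (K := κ) h
  obtain ⟨J, p, univ, hu, j, hj1, hj2, -⟩ := RelFun.exists_universal hP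
    (ι := P.obj (𝟙 (Spec (CommRingCat.of k))) × Idx X)
    (fun i => CommRingCat.of (G i.2).H) (fun i => sB k (G i.2).H) (eCl D G hG) h1 h2 h3
  refine ⟨J, p, univ, hu, ?_⟩
  refine of_charts p (fun i => (j i).1) hj1 hj2 fun i => ?_
  rw [(j i).2]
  have h4 : (algebraMap k (G i.2).H).FiniteType := by
    rw [RingHom.finiteType_algebraMap]
    exact (G i.2).ft
  exact (HasRingHomProperty.Spec_iff (P := @LocallyOfFiniteType)).2 h4

end Main

end Fermat.Agent.JH

end
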