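import Fermat.Agent.JH.Charts

/-!
# S25, block H/K: infinitesimal lifting for the representing scheme
-/

set_option autoImplicit false

noncomputable section

universe u

open CategoryTheory CategoryTheory.Limits Opposite AlgebraicGeometry NeronModelInfra TensorProduct

namespace Fermat.Agent.JH

open Fermat.Agent.JPC

variable {k : Type u} [Field k] {X : TwoChart k} {P : RelFun (Spec (CommRingCat.of k))}
  [∀ {T : Scheme.{u}} (t : T ⟶ Spec (CommRingCat.of k)), CommGroup (P.obj t)]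

/-- the quotient map as a morphism over `Spec k` -/
def sQuot (B : Type u) [CommRing B] [Algebra k B] (I : Ideal B) :
    SchemeHomOver (sB k (B ⧸ I)) (sB k B) := sMap k (Ideal.Quotient.mkₐ k I)

/-- classes lift along square zero extensions -/
theorem exists_lift_class (D : Dict X P) (hK : LiftStmt X) (B : Type u) [CommRing B]
    [Algebra k B] (I : Ideal B) (hI : I ^ 2 = ⊥) (h₀ : P.obj (sB k (B ⧸ I))) :
    ∃ h : P.obj (sB k B), P.map (sQuot B I) h = h₀ := by
  obtain ⟨L₀, hL₀⟩ := D.ex h₀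
  obtain ⟨L, hL, hr, hi⟩ := hK B I hI L₀ (D.isLine hL₀) (D.rig hL₀)
  obtain ⟨h, hh⟩ := D.ex' L hL hr
  refine ⟨h, ?_⟩
  have h1 := D.bc (B' := B ⧸ I) hh
  exact (D.eq_iff h1 hL₀).2 hi

/-- morphisms to the representing scheme lift along square zero extensions -/
theorem exists_lift_hom (D : Dict X P) (hK : LiftStmt X) {J : Scheme.{u}}
    {p : J ⟶ Spec (CommRingCat.of k)} (univ : P.obj p)
    (hu : ∀ {T : Scheme.{u}} (t : T ⟶ Spec (CommRingCat.of k)) (h : P.obj t),
      ∃! g : SchemeHomOver t p, P.map g univ = h)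
    (B : Type u) [CommRing B] [Algebra k B] (I : Ideal B) (hI : I ^ 2 = ⊥)
    (g₀ : SchemeHomOver (sB k (B ⧸ I)) p) :
    ∃ g : SchemeHomOver (sB k B) p, (sQuot (k := k) B I).1 ≫ g.1 = g₀.1 := by
  obtain ⟨h, hh⟩ := exists_lift_class D hK B I hI (P.map g₀ univ)
  obtain ⟨g, hg, -⟩ := hu (sB k B) h
  refine ⟨g, ?_⟩
  have h1 : P.map (⟨(sQuot B I).1 ≫ g.1, by rw [Category.assoc, g.2, (sQuot B I).2]⟩ :
      SchemeHomOver (sB k (B ⧸ I)) p) univ = P.map g₀ univ := by
    rw [← P.map_comp, hg, hh]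
  exact congrArg Subtype.val ((hu _ _).unique h1 rfl)

end Fermat.Agent.JH

end
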