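import Mathlib

/-!
# S25 (kb 73), block H: an abstract local representability criterion with charts checked on
affine schemes and points with values in fields
-/

set_option autoImplicit false

noncomputable section

universe u

open CategoryTheory CategoryTheory.Limits Opposite AlgebraicGeometry

namespace Fermat.Agent.JH

variable (F : Sheaf Scheme.zariskiTopology.{u} (Type u)) {X : Scheme.{u}}
  (f : yoneda.obj X ⟶ F.obj)

/-- pull-back of sections of `F` -/
def pb {T T' : Scheme.{u}} (g : T' ⟶ T) (h : F.obj.obj (op T)) : F.obj.obj (op T') :=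
  F.obj.map g.op h

variable {F}

/-- the value of a chart at a morphism -/
def cv {T : Scheme.{u}} (a : T ⟶ X) : F.obj.obj (op T) := f.app (op T) a

theorem pb_id {T : Scheme.{u}} (h : F.obj.obj (op T)) : pb F (𝟙 T) h = h := by
  unfold pb
  rw [op_id, F.obj.map_id]
  rfl

theorem pb_pb {T T' T'' : Scheme.{u}} (g : T' ⟶ T) (g' : T'' ⟶ T') (h : F.obj.obj (op T)) :
    pb F g' (pb F g h) = pb F (g' ≫ g) h := by
  unfold pb
  rw [op_comp, F.obj.map_comp]
  rfl

theorem pb_cv {T T' : Scheme.{u}} (g : T' ⟶ T) (a : T ⟶ X) :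
    pb F g (cv f a) = cv f (g ≫ a) := by
  unfold pb cv
  exact (ConcreteCategory.congr_hom (f.naturality g.op) a).symm

/-- separatedness of `F` for open covers -/
theorem ext_of_cover {T : Scheme.{u}} (𝒰 : T.OpenCover) (h h' : F.obj.obj (op T))
    (e : ∀ i, pb F (𝒰.f i) h = pb F (𝒰.f i) h') : h = h' := by
  have hF := (isSheaf_iff_isSheaf_of_type _ _).1 F.property
  have hS := 𝒰.mem_grothendieckTopology
  have hsep := (hF _ hS).isSeparatedFor
  refine hsep.ext ?_
  rintro Y g ⟨W, a, _, ⟨i⟩, rfl⟩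
  have := congrArg (pb F a) (e i)
  rw [pb_pb, pb_pb] at this
  exact this

section Single

variable (hmono : ∀ (B : CommRingCat.{u}) (a b : Spec B ⟶ X), cv f a = cv f b → a = b)
  (hopen : ∀ (B : CommRingCat.{u}) (h : F.obj.obj (op (Spec B))), ∃ U : (Spec B).Opens,
    ∀ (B' : CommRingCat.{u}) (g : Spec B' ⟶ Spec B),
      (∀ y, g y ∈ U) ↔ ∃ a : Spec B' ⟶ X, cv f a = pb F g h)

include hmono in
theorem mono_of_affine {T : Scheme.{u}} (a b : T ⟶ X) (h : cv f a = cv f b) : a = b := by
  apply T.affineCover.hom_ext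
  intro i
  have h1 := congrArg (pb F (T.affineCover.f i)) h
  rw [pb_cv, pb_cv] at h1
  exact hmono _ _ _ h1

/-- the locus of a section -/
def locus {T : Scheme.{u}} (h : F.obj.obj (op T)) : Set T :=
  {y | ∃ a : Spec (T.residueField y) ⟶ X, cv f a = pb F (T.fromSpecResidueField y) h}

include hopen in
theorem mem_locus_of_field {T : Scheme.{u}} (h : F.obj.obj (op T)) (y : T) (κ : Type u) [Field κ]
    (φ : T.residueField y ⟶ CommRingCat.of κ) (a : Spec (CommRingCat.of κ) ⟶ X)
    (ha : cv f a = pb F (Spec.map φ ≫ T.fromSpecResidueField y) h) : y ∈ locus f h := by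
  obtain ⟨U, hU⟩ := hopen (T.residueField y) (pb F (T.fromSpecResidueField y) h)
  have h1 := (hU (CommRingCat.of κ) (Spec.map φ)).2 ⟨a, by rw [ha, pb_pb]⟩
  have h2 : ∀ z : Spec (T.residueField y), z ∈ U := by
    intro z
    have := h1 (IsLocalRing.closedPoint κ)
    have e : (Spec.map φ) (IsLocalRing.closedPoint κ) = z :=
      Subsingleton.elim (α := PrimeSpectrum (T.residueField y)) _ _
    rwa [e] at this
  obtain ⟨a, ha⟩ := (hU (T.residueField y) (𝟙 _)).1 (fun z => h2 _)
  refine ⟨a, ?_⟩
  rw [ha, pb_id]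


include hopen in
/-- the range of a morphism to a scheme lies in the locus iff the chart is defined -/
theorem forall_mem_locus_iff {T : Scheme.{u}} (h : F.obj.obj (op T)) (B : CommRingCat.{u})
    (g : Spec B ⟶ T) :
    (∀ y, g y ∈ locus f h) ↔ ∃ a : Spec B ⟶ X, cv f a = pb F g h := by
  constructor
  · intro hg
    obtain ⟨U, hU⟩ := hopen B (pb F g h)
    have hU' : ∀ y, y ∈ U := by
      intro y
      obtain ⟨a, ha⟩ := hg y
      have h1 := (hU ((Spec B).residueField y) ((Spec B).fromSpecResidueField y)).2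
        ⟨Spec.map (g.residueFieldMap y) ≫ a, by
          rw [← pb_cv, ha, pb_pb, pb_pb]
          congr 1
          exact Scheme.Hom.SpecMap_residueFieldMap_fromSpecResidueField g y⟩
      have := h1 (IsLocalRing.closedPoint _)
      rwa [Scheme.fromSpecResidueField_apply] at this
    obtain ⟨a, ha⟩ := (hU B (𝟙 _)).1 (fun z => hU' _)
    exact ⟨a, by rw [ha, pb_id]⟩
  · rintro ⟨a, ha⟩ y
    refine mem_locus_of_field f hopen h (g y) ((Spec B).residueField y) (g.residueFieldMap y)
      ((Spec B).fromSpecResidueField y ≫ a) ?_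
    rw [← pb_cv, ha, pb_pb]
    congr 1
    exact (Scheme.Hom.SpecMap_residueFieldMap_fromSpecResidueField g y).symm

include hopen in
theorem isOpen_locus {T : Scheme.{u}} (h : F.obj.obj (op T)) : IsOpen (locus f h) := by
  rw [isOpen_iff_forall_mem_open]
  intro y hy
  obtain ⟨W, hW, hyW, -⟩ := exists_isAffineOpen_mem_and_subset (x := y) (U := ⊤) trivial
  obtain ⟨U, hU⟩ := hopen Γ(T, W) (pb F hW.fromSpec h)
  have hpre : ∀ z : Spec Γ(T, W), z ∈ U ↔ hW.fromSpec z ∈ locus f h := by
    intro z
    have h1 := hU ((Spec Γ(T, W)).residueField z) ((Spec Γ(T, W)).fromSpecResidueField z)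
    have h2 := forall_mem_locus_iff f hopen h ((Spec Γ(T, W)).residueField z)
      ((Spec Γ(T, W)).fromSpecResidueField z ≫ hW.fromSpec)
    rw [pb_pb, ← h2] at h1
    constructor
    · intro hz
      have h3 := h1.1 (fun w => by rwa [Scheme.fromSpecResidueField_apply])
        (IsLocalRing.closedPoint _)
      rwa [Scheme.Hom.comp_apply, Scheme.fromSpecResidueField_apply] at h3
    · intro hz
      have h3 := h1.2 (fun w => by
        rwa [Scheme.Hom.comp_apply, Scheme.fromSpecResidueField_apply])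
        (IsLocalRing.closedPoint _)
      rwa [Scheme.fromSpecResidueField_apply] at h3
  refine ⟨hW.fromSpec '' U, ?_, ?_, ?_⟩
  · rintro _ ⟨z, hz, rfl⟩
    exact (hpre z).1 hz
  · exact hW.fromSpec.isOpenEmbedding.isOpenMap _ U.2
  · have hr : y ∈ Set.range hW.fromSpec := by
      rw [hW.range_fromSpec]
      exact hyW
    obtain ⟨z, rfl⟩ := hr
    exact ⟨z, (hpre z).2 hy, rfl⟩

/-- the locus as an open subset -/
def locusOpens {T : Scheme.{u}} (h : F.obj.obj (op T)) : T.Opens :=
  ⟨locus f h, isOpen_locus f hopen h⟩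

include hmono hopen in
theorem exists_of_forall_mem_locus {T : Scheme.{u}} (h : F.obj.obj (op T))
    (hT : ∀ y, y ∈ locus f h) : ∃ a : T ⟶ X, cv f a = h := by
  have h1 : ∀ i, ∃ a : T.affineCover.X i ⟶ X, cv f a = pb F (T.affineCover.f i) h := fun i =>
    (forall_mem_locus_iff f hopen h _ (T.affineCover.f i)).1 (fun y => hT _)
  choose a ha using h1
  refine ⟨T.affineCover.glueMorphisms a ?_, ?_⟩
  · intro i j
    apply mono_of_affine f hmono
    rw [← pb_cv, ← pb_cv, ha, ha, pb_pb, pb_pb, pullback.condition]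
  · apply ext_of_cover T.affineCover
    intro i
    rw [pb_cv, Scheme.Cover.ι_glueMorphisms, ha]

include hopen in
/-- a morphism `a : T' ⟶ X` and `g : T' ⟶ T` with the same section: `g` lands in the locus -/
theorem mem_locus_of_eq {T T' : Scheme.{u}} (h : F.obj.obj (op T)) (a : T' ⟶ X) (g : T' ⟶ T)
    (e : cv f a = pb F g h) (y : T') : g y ∈ locus f h := by
  have h2 := (forall_mem_locus_iff f hopen h (T'.residueField y)
    (T'.fromSpecResidueField y ≫ g)).2
    ⟨T'.fromSpecResidueField y ≫ a, by rw [← pb_cv, e, pb_pb]⟩ (IsLocalRing.closedPoint _)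
  rwa [Scheme.Hom.comp_apply, Scheme.fromSpecResidueField_apply] at h2

include hmono hopen in
/-- a chart satisfying the affine criterion is a relatively representable open immersion -/
theorem isOpenImmersion_presheaf : IsOpenImmersion.presheaf f := by
  apply MorphismProperty.relative.of_exists
  intro T h'
  let h : F.obj.obj (op T) := yonedaEquiv h'
  let U : T.Opens := locusOpens f hopen h
  have hU : ∀ y : U, y ∈ locus f (pb F U.ι h) := by
    intro y
    obtain ⟨a, ha⟩ : U.ι y ∈ locus f h := y.2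
    refine ⟨Spec.map (U.ι.residueFieldMap y) ≫ a, ?_⟩
    rw [← pb_cv, ha, pb_pb, pb_pb]
    congr 1
    exact Scheme.Hom.SpecMap_residueFieldMap_fromSpecResidueField U.ι y
  obtain ⟨a, ha⟩ := exists_of_forall_mem_locus f hmono hopen (pb F U.ι h) hU
  refine ⟨U, yoneda.map a, U.ι, ?_, inferInstance⟩
  apply IsPullback.of_forall_isPullback_app
  intro T'
  rw [Types.isPullback_iff]
  have hh : ∀ {T'' : Scheme.{u}} (g : T'' ⟶ T), h'.app (op T'') g = pb F g h := by
    intro T'' g
    exact (map_yonedaEquiv h' g).symm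
  refine ⟨?_, ?_, ?_⟩
  · ext (b : T'.unop ⟶ U)
    change cv f (b ≫ a) = h'.app (op T'.unop) (b ≫ U.ι)
    rw [hh, ← pb_cv, ha, pb_pb]
  · rintro b b' ⟨-, hb⟩
    exact (cancel_mono U.ι).1 hb
  · intro φ g hφ
    have e : cv f φ = pb F g h := by
      rw [← hh]
      exact hφ
    have hg := mem_locus_of_eq f hopen h φ g e
    refine ⟨IsOpenImmersion.lift U.ι g ?_, ?_, ?_⟩
    · rintro _ ⟨y, rfl⟩
      rw [Scheme.Opens.range_ι]
      exact hg y
    · apply mono_of_affine f hmono
      change cv f (IsOpenImmersion.lift U.ι g _ ≫ a) = cv f φ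
      rw [← pb_cv, ha, pb_pb, IsOpenImmersion.lift_fac, e]
    · exact IsOpenImmersion.lift_fac _ _ _

include hmono hopen in
theorem exists_on_locus {T : Scheme.{u}} (h : F.obj.obj (op T)) :
    ∃ a : (locusOpens f hopen h : T.Opens).toScheme ⟶ X,
      cv f a = pb F (locusOpens f hopen h).ι h := by
  apply exists_of_forall_mem_locus f hmono hopen
  intro y
  obtain ⟨a, ha⟩ : (locusOpens f hopen h).ι y ∈ locus f h := y.2
  refine ⟨Spec.map ((locusOpens f hopen h).ι.residueFieldMap y) ≫ a, ?_⟩
  rw [← pb_cv, ha, pb_pb, pb_pb]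
  congr 1
  exact Scheme.Hom.SpecMap_residueFieldMap_fromSpecResidueField (locusOpens f hopen h).ι y

end Single

section Family

variable {ι : Type u} {Y : ι → Scheme.{u}} (q : ∀ i, yoneda.obj (Y i) ⟶ F.obj)
  (hm : ∀ i (B : CommRingCat.{u}) (a b : Spec B ⟶ Y i), cv (q i) a = cv (q i) b → a = b)
  (ho : ∀ i (B : CommRingCat.{u}) (h : F.obj.obj (op (Spec B))), ∃ U : (Spec B).Opens,
    ∀ (B' : CommRingCat.{u}) (g : Spec B' ⟶ Spec B),
      (∀ y, g y ∈ U) ↔ ∃ a : Spec B' ⟶ Y i, cv (q i) a = pb F g h)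
  (hc : ∀ (κ : Type u) [Field κ] (h : F.obj.obj (op (Spec (CommRingCat.of κ)))),
    ∃ i, ∃ a : Spec (CommRingCat.of κ) ⟶ Y i, cv (q i) a = h)

theorem desc_app (i : ι) {V : Scheme.{u}} (x : V ⟶ Y i) :
    (Sigma.desc q).app (op V) ((Sigma.ι (fun i => yoneda.obj (Y i)) i).app (op V) x) =
      cv (q i) x := by
  have h2 : Sigma.ι (fun i => yoneda.obj (Y i)) i ≫ Sigma.desc q = q i := Sigma.ι_desc _ _
  exact congrArg (fun (t : yoneda.obj (Y i) ⟶ F.obj) => t.app (op V) x) h2

include hm ho hc in
theorem isLocallySurjective :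
    Presheaf.IsLocallySurjective Scheme.zariskiTopology (Sigma.desc q) := by
  constructor
  intro T h
  let U : ι → T.Opens := fun i => locusOpens (q i) (ho i) h
  have hU : TopologicalSpace.IsOpenCover U := by
    rw [TopologicalSpace.IsOpenCover, eq_top_iff]
    intro y _
    obtain ⟨i, a, ha⟩ := hc (T.residueField y) (pb F (T.fromSpecResidueField y) h)
    rw [TopologicalSpace.Opens.mem_iSup]
    exact ⟨i, a, ha⟩
  refine GrothendieckTopology.superset_covering _ ?_
    (T.openCoverOfIsOpenCover U hU).mem_grothendieckTopology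
  have key : ∀ (i : ι) {V : Scheme.{u}} (a : V ⟶ (U i).toScheme),
      Presheaf.imageSieve (Sigma.desc q) h (a ≫ (U i).ι) := by
    intro i V a
    obtain ⟨b, hb⟩ := exists_on_locus (q i) (hm i) (ho i) h
    refine ⟨(Sigma.ι (fun i => yoneda.obj (Y i)) i).app (op V) (a ≫ b), ?_⟩
    rw [desc_app, ← pb_cv, hb, pb_pb]
    rfl
  rintro V g ⟨W, a, _, ⟨i⟩, rfl⟩
  exact key i a

include hm ho hc in
/-- **local representability** with charts checked on affine schemes and on points with values in
fields. -/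
theorem exists_representableBy : ∃ (J : Scheme.{u}) (r : F.obj.RepresentableBy J)
    (j : ∀ i, Y i ⟶ J), (∀ i, IsOpenImmersion (j i)) ∧ (∀ y : J, ∃ i, y ∈ Set.range (j i)) ∧
      ∀ i, r.homEquiv (j i) = cv (q i) (𝟙 (Y i)) := by
  have hf : ∀ i, IsOpenImmersion.presheaf (q i) := fun i =>
    isOpenImmersion_presheaf (q i) (hm i) (ho i)
  have := isLocallySurjective q hm ho hc
  refine ⟨_, Scheme.LocalRepresentability.representableBy hf,
    fun i => Scheme.LocalRepresentability.toGlued hf i, fun i => inferInstance, ?_, ?_⟩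
  · intro y
    exact (Scheme.LocalRepresentability.glueData hf).openCover.exists_eq y
  · intro i
    exact Scheme.LocalRepresentability.yonedaGluedToSheaf_app_toGlued hf

end Family

end Fermat.Agent.JH

end
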